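import Mathlib
import Fermat.Agent.S16.H97.Presentation

/-!
# S16 / L1 (backup, helper14): cocycles on `SL(2,ℤ)` with values in functions on a coset space

For a subgroup `Γ ≤ SL(2,ℤ)` containing `-1`, `X := SL(2,ℤ) ⧸ Γ` and an abelian group `A`:

* `exists_cocycle`: every pair `a, b : X → A` with `(1 + S) a = 0` and `(1 + U + U²) b = 0`
  (`U = S * T`) is the pair of values at `S`, `U` of a (right) cocycle
  `c : SL(2,ℤ) → X → A`, `c (g * h) x = c g (h • x) + c h x`.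
  (Proof: the presentation `PSL(2,ℤ) = C₂ * C₃` of `H97.Presentation`, applied to skew
  permutations of `X × A`.)
* `cocycle_ext`: a cocycle is determined by its values at `S` and `U`.
* `shapiro χ`: the cocycle attached to a homomorphism `χ : Γ → A`, and `cocycleHom c`: the
  homomorphism `Γ → A`, `γ ↦ c γ (mk 1)` attached to a cocycle.
-/

set_option autoImplicit false

open scoped MatrixGroups
open ModularGroup

namespace Fermat.Agent.S16.H14

noncomputable section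

variable {Γ : Subgroup SL(2, ℤ)} {A : Type*} [AddCommGroup A]

/-- The (right) cocycle condition. -/
def IsCocycle (c : SL(2, ℤ) → SL(2, ℤ) ⧸ Γ → A) : Prop :=
  ∀ g h x, c (g * h) x = c g (h • x) + c h x

theorem neg_one_smul_quot (hΓ : -1 ∈ Γ) (x : SL(2, ℤ) ⧸ Γ) : (-1 : SL(2, ℤ)) • x = x := by
  induction x using QuotientGroup.induction_on with
  | H g =>
    rw [MulAction.Quotient.smul_mk, QuotientGroup.eq]
    have h : ((-1 : SL(2, ℤ)) • g)⁻¹ * g = -1 := by simp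
    rw [h]
    exact hΓ

theorem S_smul_S_smul (hΓ : -1 ∈ Γ) (x : SL(2, ℤ) ⧸ Γ) : S • S • x = x := by
  rw [← mul_smul, Fermat.Agent.S16.H97.S_mul_S, neg_one_smul_quot hΓ]

theorem U_cube : ((S * T) * (S * T) * (S * T) : SL(2, ℤ)) = -1 := by decide

theorem U_smul_U_smul_U_smul (hΓ : -1 ∈ Γ) (x : SL(2, ℤ) ⧸ Γ) :
    (S * T) • (S * T) • (S * T) • x = x := by
  rw [← mul_smul, ← mul_smul, U_cube, neg_one_smul_quot hΓ]

/-! ### Skew permutations of `X × A` -/

/-- The permutation `(x, t) ↦ (g • x, t + f x)` of `X × A`. -/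
def skew (g : SL(2, ℤ)) (f : SL(2, ℤ) ⧸ Γ → A) : Equiv.Perm ((SL(2, ℤ) ⧸ Γ) × A) where
  toFun xt := (g • xt.1, xt.2 + f xt.1)
  invFun yt := (g⁻¹ • yt.1, yt.2 - f (g⁻¹ • yt.1))
  left_inv := by
    rintro ⟨x, t⟩
    simp
  right_inv := by
    rintro ⟨y, t⟩
    simp

@[simp]
theorem skew_apply (g : SL(2, ℤ)) (f : SL(2, ℤ) ⧸ Γ → A) (x : SL(2, ℤ) ⧸ Γ) (t : A) :
    skew g f (x, t) = (g • x, t + f x) := rfl

theorem skew_mul (g h : SL(2, ℤ)) (f f' : SL(2, ℤ) ⧸ Γ → A) :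
    skew g f * skew h f' = skew (g * h) (fun x => f (h • x) + f' x) := by
  ext ⟨x, t⟩
  · simp [mul_smul]
  · simp only [Equiv.Perm.coe_mul, Function.comp_apply, skew_apply]
    abel

theorem skew_one : skew (1 : SL(2, ℤ)) (0 : SL(2, ℤ) ⧸ Γ → A) = 1 := by
  ext ⟨x, t⟩ <;> simp

theorem skew_inv (g : SL(2, ℤ)) (f : SL(2, ℤ) ⧸ Γ → A) :
    (skew g f)⁻¹ = skew g⁻¹ (fun y => -f (g⁻¹ • y)) := by
  rw [inv_eq_iff_mul_eq_one, skew_mul]
  ext ⟨x, t⟩ <;> simp

/-- Existence of a cocycle with prescribed values at `S` and `U = S * T`. -/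
theorem exists_cocycle (hΓ : -1 ∈ Γ) (a b : SL(2, ℤ) ⧸ Γ → A)
    (ha : ∀ x, a x + a (S • x) = 0)
    (hb : ∀ x, b x + b ((S * T) • x) + b ((S * T) • (S * T) • x) = 0) :
    ∃ c : SL(2, ℤ) → SL(2, ℤ) ⧸ Γ → A,
      (∀ g h x, c (g * h) x = c g (h • x) + c h x) ∧ c S = a ∧ c (S * T) = b := by
  have hs : (skew S a : Equiv.Perm ((SL(2, ℤ) ⧸ Γ) × A)) ^ 2 = 1 := by
    rw [pow_two, skew_mul]
    ext ⟨x, t⟩
    · simp [Fermat.Agent.S16.H97.S_mul_S, neg_one_smul_quot hΓ]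
    · simp only [skew_apply, Equiv.Perm.coe_one, id_eq]
      rw [add_comm (a (S • x)), ha x, add_zero]
  have hu : (skew (S * T) b : Equiv.Perm ((SL(2, ℤ) ⧸ Γ) × A)) ^ 3 = 1 := by
    rw [pow_succ, pow_two, skew_mul, skew_mul]
    ext ⟨x, t⟩
    · simp only [skew_apply, Equiv.Perm.coe_one, id_eq]
      rw [U_cube, neg_one_smul_quot hΓ]
    · simp only [skew_apply, Equiv.Perm.coe_one, id_eq]
      have := hb x
      rw [show b ((S * T) • (S * T) • x) + b ((S * T) • x) + b x =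
        b x + b ((S * T) • x) + b ((S * T) • (S * T) • x) by abel, this, add_zero]
  obtain ⟨Φ, hΦS, hΦU⟩ := Fermat.Agent.S16.H97.exists_monoidHom_S_ST _ _ hs hu
  -- every `Φ g` is a skew permutation over `g`
  have hskew : ∀ g : SL(2, ℤ), ∃ f : SL(2, ℤ) ⧸ Γ → A, Φ g = skew g f := by
    intro g
    have hg : g ∈ Subgroup.closure ({S, T} : Set SL(2, ℤ)) := by
      rw [SpecialLinearGroup.SL2Z_generators]; trivial
    induction hg using Subgroup.closure_induction with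
    | mem x hx =>
      rcases hx with rfl | rfl
      · exact ⟨a, hΦS⟩
      · have hT : (T : SL(2, ℤ)) = S⁻¹ * (S * T) := by simp
        refine ⟨fun x => -a (S⁻¹ • (S * T) • x) + b x, ?_⟩
        conv_lhs => rw [hT]
        rw [map_mul, map_inv, hΦS, hΦU, skew_inv, skew_mul, ← hT]
    | one => exact ⟨0, by rw [map_one, skew_one]⟩
    | mul x y _ _ hx hy =>
      obtain ⟨f, hf⟩ := hx
      obtain ⟨f', hf'⟩ := hy
      exact ⟨_, by rw [map_mul, hf, hf', skew_mul]⟩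
    | inv x _ hx =>
      obtain ⟨f, hf⟩ := hx
      exact ⟨_, by rw [map_inv, hf, skew_inv]⟩
  choose c hc using hskew
  refine ⟨c, ?_, ?_, ?_⟩
  · intro g h x
    have h1 : Φ (g * h) (x, 0) = Φ g (Φ h (x, 0)) := by rw [map_mul]; rfl
    rw [hc, hc, hc, skew_apply, skew_apply, skew_apply] at h1
    have h2 := congrArg Prod.snd h1
    simp only [zero_add] at h2
    rw [h2, add_comm]
  · funext x
    have h1 : Φ S (x, 0) = skew S a (x, 0) := by rw [hΦS]
    rw [hc, skew_apply, skew_apply] at h1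
    have h2 := congrArg Prod.snd h1
    simpa using h2
  · funext x
    have h1 : Φ (S * T) (x, 0) = skew (S * T) b (x, 0) := by rw [hΦU]
    rw [hc, skew_apply, skew_apply] at h1
    have h2 := congrArg Prod.snd h1
    simpa using h2

/-! ### Uniqueness -/

theorem IsCocycle.map_one {c : SL(2, ℤ) → SL(2, ℤ) ⧸ Γ → A} (hc : IsCocycle c)
    (x : SL(2, ℤ) ⧸ Γ) : c 1 x = 0 := by
  have h := hc 1 1 x
  rw [one_mul, one_smul] at h
  exact left_eq_add.mp h

theorem IsCocycle.map_inv {c : SL(2, ℤ) → SL(2, ℤ) ⧸ Γ → A} (hc : IsCocycle c)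
    (g : SL(2, ℤ)) (x : SL(2, ℤ) ⧸ Γ) : c g⁻¹ x = -c g (g⁻¹ • x) := by
  have h := hc g g⁻¹ x
  rw [mul_inv_cancel, hc.map_one] at h
  exact eq_neg_of_add_eq_zero_right h.symm

/-- A cocycle is determined by its values at `S` and `S * T`. -/
theorem cocycle_ext {c c' : SL(2, ℤ) → SL(2, ℤ) ⧸ Γ → A} (hc : IsCocycle c) (hc' : IsCocycle c')
    (hS : c S = c' S) (hU : c (S * T) = c' (S * T)) : c = c' := by
  funext g
  have hg : g ∈ Subgroup.closure ({S, T} : Set SL(2, ℤ)) := by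
    rw [SpecialLinearGroup.SL2Z_generators]; trivial
  induction hg using Subgroup.closure_induction with
  | mem x hx =>
    rcases hx with rfl | rfl
    · exact hS
    · have hT : (T : SL(2, ℤ)) = S⁻¹ * (S * T) := by simp
      funext x
      rw [hT, hc, hc', hc.map_inv, hc'.map_inv, hS, hU]
  | one => funext x; rw [hc.map_one, hc'.map_one]
  | mul x y _ _ hx hy => funext z; rw [hc, hc', hx, hy]
  | inv x _ hx => funext z; rw [hc.map_inv, hc'.map_inv, hx]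

/-! ### From cocycles to homomorphisms on `Γ`, and back -/

theorem smul_mk_one_of_mem {γ : SL(2, ℤ)} (hγ : γ ∈ Γ) :
    γ • (QuotientGroup.mk 1 : SL(2, ℤ) ⧸ Γ) = QuotientGroup.mk 1 := by
  rw [MulAction.Quotient.smul_mk, QuotientGroup.eq]
  simpa using hγ

/-- The homomorphism `Γ → A`, `γ ↦ c γ (mk 1)` attached to a cocycle. -/
def cocycleHom (c : SL(2, ℤ) → SL(2, ℤ) ⧸ Γ → A) (hc : IsCocycle c) : Additive Γ →+ A where
  toFun γ := c (Additive.toMul γ : Γ) (QuotientGroup.mk 1)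
  map_zero' := by
    show c ((1 : Γ) : SL(2, ℤ)) _ = 0
    rw [Subgroup.coe_one, hc.map_one]
  map_add' γ γ' := by
    show c (((Additive.toMul γ * Additive.toMul γ' : Γ)) : SL(2, ℤ)) _ = _
    rw [Subgroup.coe_mul, hc, smul_mk_one_of_mem (Additive.toMul γ').2]

@[simp]
theorem cocycleHom_apply (c : SL(2, ℤ) → SL(2, ℤ) ⧸ Γ → A) (hc : IsCocycle c) (γ : Γ) :
    cocycleHom c hc (Additive.ofMul γ) = c γ (QuotientGroup.mk 1) := rfl

theorem shapiro_mem (g : SL(2, ℤ)) (x : SL(2, ℤ) ⧸ Γ) :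
    (Quotient.out (g • x))⁻¹ * (g * Quotient.out x) ∈ Γ := by
  rw [← QuotientGroup.eq, QuotientGroup.out_eq']
  conv_lhs => rw [← QuotientGroup.out_eq' x]
  rfl

/-- The Shapiro cocycle of a homomorphism `χ : Γ → A`:
`c g x = χ ((rep (g • x))⁻¹ * g * rep x)`. -/
def shapiro (χ : Additive Γ →+ A) (g : SL(2, ℤ)) (x : SL(2, ℤ) ⧸ Γ) : A :=
  χ (Additive.ofMul ⟨(Quotient.out (g • x))⁻¹ * (g * Quotient.out x), shapiro_mem g x⟩)

theorem isCocycle_shapiro (χ : Additive Γ →+ A) : IsCocycle (shapiro χ) := by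
  intro g h x
  unfold shapiro
  rw [← map_add]
  congr 1
  rw [← ofMul_mul]
  congr 1
  apply Subtype.ext
  simp only [Subgroup.coe_mul, mul_smul]
  group

/-- The value of the Shapiro cocycle at `g` and a point fixed by `g`. -/
theorem shapiro_of_smul_eq (χ : Additive Γ →+ A) {g : SL(2, ℤ)} {x : SL(2, ℤ) ⧸ Γ}
    (h : g • x = x) (hmem : (Quotient.out x)⁻¹ * g * Quotient.out x ∈ Γ) :
    shapiro χ g x = χ (Additive.ofMul ⟨(Quotient.out x)⁻¹ * g * Quotient.out x, hmem⟩) := by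
  unfold shapiro
  congr 2
  apply Subtype.ext
  simp only [h, mul_assoc]

theorem conj_out_mem_of_smul_eq {g : SL(2, ℤ)} {x : SL(2, ℤ) ⧸ Γ} (h : g • x = x) :
    (Quotient.out x)⁻¹ * g * Quotient.out x ∈ Γ := by
  have := shapiro_mem (Γ := Γ) g x
  rw [h] at this
  simpa [mul_assoc] using this

/-- The Shapiro cocycle of `χ` restricts to `χ` on `Γ`. -/
theorem cocycleHom_shapiro (χ : Additive Γ →+ A) :
    cocycleHom (shapiro χ) (isCocycle_shapiro χ) = χ := by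
  refine AddMonoidHom.ext fun γ => ?_
  obtain ⟨γ, rfl⟩ : ∃ γ' : Γ, Additive.ofMul γ' = γ := ⟨Additive.toMul γ, rfl⟩
  rw [cocycleHom_apply]
  have hfix := smul_mk_one_of_mem (Γ := Γ) γ.2
  rw [shapiro_of_smul_eq χ hfix (conj_out_mem_of_smul_eq hfix)]
  -- `rep (mk 1) ∈ Γ`
  have hr : Quotient.out (QuotientGroup.mk 1 : SL(2, ℤ) ⧸ Γ) ∈ Γ := by
    have h1 : (QuotientGroup.mk (Quotient.out (QuotientGroup.mk 1 : SL(2, ℤ) ⧸ Γ)) :
        SL(2, ℤ) ⧸ Γ) = QuotientGroup.mk 1 := QuotientGroup.out_eq' _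
    rw [eq_comm, QuotientGroup.eq] at h1
    simpa using h1
  have heq : (⟨(Quotient.out (QuotientGroup.mk 1 : SL(2, ℤ) ⧸ Γ))⁻¹ * γ *
      Quotient.out (QuotientGroup.mk 1 : SL(2, ℤ) ⧸ Γ), conj_out_mem_of_smul_eq hfix⟩ : Γ) =
      (⟨_, hr⟩ : Γ)⁻¹ * γ * ⟨_, hr⟩ := Subtype.ext rfl
  rw [heq, ofMul_mul, ofMul_mul, ofMul_inv, map_add, map_add, map_neg]
  abel

end

end Fermat.Agent.S16.H14
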