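import Mathlib
import Fermat.Agent.S16.H14.Cocycle

/-!
# S16 / L1 (backup, helper14): integral lifts of characters `Γ → ZMod n`

`exists_int_lift`: a homomorphism `χ : Γ → ZMod n` (`-1 ∈ Γ ≤ SL(2,ℤ)`) that vanishes on `-1` and
on all conjugates of `S` and of `S * T` lying in `Γ` lifts to a homomorphism `ψ : Γ → ℤ`.
`exists_int_lift_cocycle` also returns the integral cocycle.
-/

set_option autoImplicit false

open scoped MatrixGroups
open ModularGroup

namespace Fermat.Agent.S16.H14

noncomputable section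

/-! ### Orbit-wise lifting on a set with an involution / a map of order three -/

/-- Lifting along an involution. -/
theorem exists_lift_involution {X : Type*} (σ : X → X) (hσ : ∀ x, σ (σ x) = x) (n : ℕ)
    (a : X → ZMod n) (ha : ∀ x, a x + a (σ x) = 0) (hfix : ∀ x, σ x = x → a x = 0) :
    ∃ a' : X → ℤ, (∀ x, a' x + a' (σ x) = 0) ∧ ∀ x, ((a' x : ℤ) : ZMod n) = a x := by
  classical
  let _ : LinearOrder X := linearOrderOfSTO WellOrderingRel
  let α : X → ℤ := fun x => (a x).cast
  have hα : ∀ x, ((α x : ℤ) : ZMod n) = a x := fun x => ZMod.intCast_zmod_cast (a x)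
  refine ⟨fun x => if σ x = x then 0 else if x ≤ σ x then α x else -α (σ x), ?_, ?_⟩
  · intro x
    by_cases hx : σ x = x
    · simp only [hx, if_true]
      simp
    · have hx' : ¬ x = σ x := fun h => hx h.symm
      simp only [hx, hx', if_false, hσ]
      by_cases hle : x ≤ σ x
      · have hlt : ¬ σ x ≤ x := fun h => hx (le_antisymm h hle)
        simp only [hle, hlt, if_true, if_false]
        ring
      · have hle' : σ x ≤ x := le_of_not_ge hle
        simp only [hle, hle', if_true, if_false]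
        ring
  · intro x
    by_cases hx : σ x = x
    · simp only [hx, if_true]
      rw [hfix x hx]; simp
    · simp only [hx, if_false]
      by_cases hle : x ≤ σ x
      · simp only [hle, if_true]; exact hα x
      · simp only [hle, if_false]
        rw [Int.cast_neg, hα]
        exact (eq_neg_of_add_eq_zero_left (ha x)).symm

/-- Lifting along a map of order three. -/
theorem exists_lift_order_three {X : Type*} (υ : X → X) (hυ : ∀ x, υ (υ (υ x)) = x) (n : ℕ)
    (b : X → ZMod n) (hb : ∀ x, b x + b (υ x) + b (υ (υ x)) = 0)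
    (hfix : ∀ x, υ x = x → b x = 0) :
    ∃ b' : X → ℤ, (∀ x, b' x + b' (υ x) + b' (υ (υ x)) = 0) ∧
      ∀ x, ((b' x : ℤ) : ZMod n) = b x := by
  classical
  let _ : LinearOrder X := linearOrderOfSTO WellOrderingRel
  let β : X → ℤ := fun x => (b x).cast
  have hβ : ∀ x, ((β x : ℤ) : ZMod n) = b x := fun x => ZMod.intCast_zmod_cast (b x)
  -- the orbit minimum
  let m : X → X := fun x => min x (min (υ x) (υ (υ x)))
  have hm : ∀ x, m (υ x) = m x := by
    intro x
    show min (υ x) (min (υ (υ x)) (υ (υ (υ x)))) = min x (min (υ x) (υ (υ x)))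
    rw [hυ, min_comm (υ (υ x)) x, min_left_comm]
  have hmem : ∀ x, m x = x ∨ m x = υ x ∨ m x = υ (υ x) := by
    intro x
    show min x (min (υ x) (υ (υ x))) = x ∨ min x (min (υ x) (υ (υ x))) = υ x ∨
      min x (min (υ x) (υ (υ x))) = υ (υ x)
    rcases min_choice x (min (υ x) (υ (υ x))) with h | h
    · exact Or.inl h
    · rcases min_choice (υ x) (υ (υ x)) with h' | h'
      · exact Or.inr (Or.inl (h.trans h'))
      · exact Or.inr (Or.inr (h.trans h'))
  -- the total over an orbit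
  let e : X → ℤ := fun x => β x + β (υ x) + β (υ (υ x))
  let δ : X → ℤ := fun x => if υ x = x then β x else if m x = x then e x else 0
  have hυinj : ∀ x y, υ x = υ y → x = y := by
    intro x y h
    have := congrArg (fun z => υ (υ z)) h
    simpa [hυ] using this
  refine ⟨fun x => β x - δ x, ?_, ?_⟩
  · -- the sum over an orbit vanishes
    have key : ∀ x, m x = x → (β x - δ x) + (β (υ x) - δ (υ x)) + (β (υ (υ x)) - δ (υ (υ x))) = 0 := by
      intro x hmx
      by_cases hx : υ x = x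
      · simp only [δ, hx, if_true]; ring
      · have hx1 : υ (υ x) ≠ υ x := fun h => hx (hυinj _ _ h)
        have hx2 : υ (υ (υ x)) ≠ υ (υ x) := fun h => hx1 (hυinj _ _ h)
        have h1 : m (υ x) ≠ υ x := by rw [hm, hmx]; exact fun h => hx h.symm
        have h2 : m (υ (υ x)) ≠ υ (υ x) := by
          rw [hm, hm, hmx]
          intro h
          apply hx
          have h3 := congrArg υ h
          rwa [hυ] at h3
        simp only [δ, hx, hx1, hx2, hmx, h1, h2, if_true, if_false, e]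
        ring
    intro x
    show (β x - δ x) + (β (υ x) - δ (υ x)) + (β (υ (υ x)) - δ (υ (υ x))) = 0
    rcases hmem x with h | h | h
    · exact key x h
    · have := key (υ x) (by rw [hm]; exact h)
      simp only [hυ] at this
      linarith
    · have := key (υ (υ x)) (by rw [hm, hm]; exact h)
      simp only [hυ] at this
      linarith
  · intro x
    have hδ : ((δ x : ℤ) : ZMod n) = 0 := by
      by_cases hx : υ x = x
      · simp only [δ, hx, if_true]
        rw [hβ, hfix x hx]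
      · simp only [δ, hx, if_false]
        by_cases hmx : m x = x
        · simp only [hmx, if_true, e]
          push_cast
          rw [hβ, hβ, hβ, hb]
        · simp only [hmx, if_false]
          simp
    show (((β x - δ x : ℤ)) : ZMod n) = b x
    rw [Int.cast_sub, hδ, sub_zero, hβ]

/-! ### The integral lift -/

variable {Γ : Subgroup SL(2, ℤ)}

/-- Integral lift of a character, together with the cocycle: `c` is an integral cocycle whose
reduction mod `n` is the Shapiro cocycle of `χ`. -/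
theorem exists_int_lift_cocycle (hΓ : -1 ∈ Γ) (n : ℕ) (χ : Additive Γ →+ ZMod n)
    (hneg : χ (Additive.ofMul ⟨-1, hΓ⟩) = 0)
    (hS : ∀ (g : SL(2, ℤ)) (h : g⁻¹ * S * g ∈ Γ), χ (Additive.ofMul ⟨g⁻¹ * S * g, h⟩) = 0)
    (hU : ∀ (g : SL(2, ℤ)) (h : g⁻¹ * (S * T) * g ∈ Γ),
      χ (Additive.ofMul ⟨g⁻¹ * (S * T) * g, h⟩) = 0) :
    ∃ c : SL(2, ℤ) → SL(2, ℤ) ⧸ Γ → ℤ, IsCocycle c ∧
      ∀ g x, ((c g x : ℤ) : ZMod n) = shapiro χ g x := by
  have hcoc := isCocycle_shapiro χ
  -- the value of the Shapiro cocycle at `-1`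
  have hneg' : ∀ x : SL(2, ℤ) ⧸ Γ, shapiro χ (-1) x = 0 := by
    intro x
    have hfix := neg_one_smul_quot hΓ x
    rw [shapiro_of_smul_eq χ hfix (conj_out_mem_of_smul_eq hfix)]
    have : (⟨(Quotient.out x)⁻¹ * (-1) * Quotient.out x, conj_out_mem_of_smul_eq hfix⟩ : Γ) =
        ⟨-1, hΓ⟩ := Subtype.ext (by simp)
    rw [this, hneg]
  have ha : ∀ x : SL(2, ℤ) ⧸ Γ, shapiro χ S x + shapiro χ S (S • x) = 0 := by
    intro x
    have h := hcoc S S x
    rw [Fermat.Agent.S16.H97.S_mul_S, hneg'] at h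
    rw [add_comm]; exact h.symm
  have hb : ∀ x : SL(2, ℤ) ⧸ Γ, shapiro χ (S * T) x + shapiro χ (S * T) ((S * T) • x) +
      shapiro χ (S * T) ((S * T) • (S * T) • x) = 0 := by
    intro x
    have h := hcoc ((S * T) * (S * T)) (S * T) x
    rw [U_cube, hneg', hcoc (S * T) (S * T)] at h
    rw [h]; abel
  have hafix : ∀ x : SL(2, ℤ) ⧸ Γ, S • x = x → shapiro χ S x = 0 := by
    intro x hx
    rw [shapiro_of_smul_eq χ hx (conj_out_mem_of_smul_eq hx)]
    exact hS _ _
  have hbfix : ∀ x : SL(2, ℤ) ⧸ Γ, (S * T) • x = x → shapiro χ (S * T) x = 0 := by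
    intro x hx
    rw [shapiro_of_smul_eq χ hx (conj_out_mem_of_smul_eq hx)]
    exact hU _ _
  obtain ⟨a', ha', haa'⟩ := exists_lift_involution (fun x : SL(2, ℤ) ⧸ Γ => S • x)
    (S_smul_S_smul hΓ) n (shapiro χ S) ha hafix
  obtain ⟨b', hb', hbb'⟩ := exists_lift_order_three (fun x : SL(2, ℤ) ⧸ Γ => (S * T) • x)
    (U_smul_U_smul_U_smul hΓ) n (shapiro χ (S * T)) hb hbfix
  obtain ⟨c, hc, hcS, hcU⟩ := exists_cocycle hΓ a' b' ha' hb'
  refine ⟨c, hc, ?_⟩
  have hred : IsCocycle (fun g x => ((c g x : ℤ) : ZMod n)) := by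
    intro g h x
    show ((c (g * h) x : ℤ) : ZMod n) = _
    rw [hc g h x, Int.cast_add]
  have := cocycle_ext hred hcoc (by funext x; show ((c S x : ℤ) : ZMod n) = _; rw [hcS, haa'])
    (by funext x; show ((c (S * T) x : ℤ) : ZMod n) = _; rw [hcU, hbb'])
  intro g x
  exact congrFun (congrFun this g) x

/-- **Integral lift** of a character `χ : Γ → ZMod n` vanishing on `-1` and on the elliptic
elements (conjugates of `S` and of `S * T` in `Γ`). -/
theorem exists_int_lift (hΓ : -1 ∈ Γ) (n : ℕ) (χ : Additive Γ →+ ZMod n)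
    (hneg : χ (Additive.ofMul ⟨-1, hΓ⟩) = 0)
    (hS : ∀ (g : SL(2, ℤ)) (h : g⁻¹ * S * g ∈ Γ), χ (Additive.ofMul ⟨g⁻¹ * S * g, h⟩) = 0)
    (hU : ∀ (g : SL(2, ℤ)) (h : g⁻¹ * (S * T) * g ∈ Γ),
      χ (Additive.ofMul ⟨g⁻¹ * (S * T) * g, h⟩) = 0) :
    ∃ ψ : Additive Γ →+ ℤ, ∀ γ, ((ψ γ : ℤ) : ZMod n) = χ γ := by
  obtain ⟨c, hc, hcχ⟩ := exists_int_lift_cocycle hΓ n χ hneg hS hU
  refine ⟨cocycleHom c hc, fun γ => ?_⟩
  obtain ⟨γ, rfl⟩ : ∃ γ' : Γ, Additive.ofMul γ' = γ := ⟨Additive.toMul γ, rfl⟩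
  rw [cocycleHom_apply, hcχ, ← cocycleHom_apply (shapiro χ) (isCocycle_shapiro χ),
    cocycleHom_shapiro]

end

end Fermat.Agent.S16.H14
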